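import Mathlib
import Fermat.Agent.MU.Lib.BadRed.Bridge.P1
import Fermat.Agent.F3.Galois.TorsionReduce
import Fermat.Agent.MU.Lib.BadRed.Bridge.NormAt
import Fermat.Agent.MU.Lib.BadRed.Bridge.NormRel
import Fermat.Agent.MU.F3.I2.Deg.ALPushAt
import Fermat.Agent.MU.Lib.BadRed.Bridge.AuxNew
import Fermat.Agent.MU.Lib.BadRed.Bridge.AuxLevel
import Fermat.Agent.S35.Targets
import Fermat.Agent.MU.F3.I2.Deg.Canon
import Fermat.Agent.MU.F3.EigenPadic.Closed

section MergeWrap_Lib_BadRed_Bridge_FrobClass -- from Lib/BadRed/Bridge/FrobClass.lean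

set_option autoImplicit false
set_option linter.style.haveILetI false
set_option linter.unusedSectionVars false

/-!
# Cluster T / S35: the quartic identity on divisor classes  (statement: helper36)

`frobQuartic_class`: class form of `frobQuartic_fun` (`Bridge/P1.lean`).  Let `y ∈ J₀(M)[n]`,
`q ∤ n`, and suppose that every Kummer generator `f` of `y` (`n D = div f`, `y = [D]`)
satisfies the two norm relations in expansion form.  Then for every Frobenius element `φ`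
at a place `A | q`
    `φ⁴ y - (q² + 1) φ² y + q² y = 0`.

Proof: `exists_div_of_zsmul_eq_zero` (helper42, `F3/Galois/TorsionReduce.lean`), then
`frobQuartic_fun`, then `mk_sub_add_nsmul_eq_zero_of_pow` with `a = φ⁴ f`,
`b = (φ² f)^(q² + 1)`, `c = f`, `ℓ = q²`.  Model: `Bridge/T1ofPow.lean`.

`frobQuartic_class_of_fun` is the general form (hypothesis: the function-level quartic
identity itself); `frobQuartic_class` is derived from it with `frobQuartic_fun`.

Proof: helper16.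
-/

noncomputable section

namespace Fermat.Agent.BadRed

open ModularCurve AlgebraicCurve Fermat.Agent.F3 Fermat.Agent.F3G Fermat.Agent.GaussInt
  Fermat.Agent.Kronecker

local notation "Qb" => AlgebraicClosure ℚ

variable {M : ℕ} [NeZero M]

/-- **class form of (P1) + (P2), general form.**  Instead of the toric key at level `M`
(`hww`, `hkey`, `hwG` of `frobQuartic_class`) the hypothesis is the function-level quartic
identity `hfun` itself, so that the descent from an auxiliary level (`q = 2, 3`,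
`Bridge/AuxNew.lean`) feeds the same class-level theorem. -/
theorem frobQuartic_class_of_fun (w : FBar M ≃ₐ[Qb] FBar M) {q : ℕ} [NeZero q]
    {n : ℕ} (hqn : ¬ q ∣ n)
    {φ : Qb ≃ₐ[ℚ] Qb}
    (ζ : Qbˣ)
    (hfun : ∀ (f u₁ u₂ : FBar M) (c₁ c₂ : Qb), f ≠ 0 →
      (∀ P : Place Qb (FBar M), (n : ℤ) ∣ P.ord f) →
      (qExpand Qb q ((algebraMap Qb (FBar M) c₁ * u₁ ^ n : FBar M) : LaurentSeries Qb) =
          qExpand Qb q (f : LaurentSeries Qb) *
            ∏ i ∈ Finset.range q, scaleL (ζ ^ i) ((w f : FBar M) : LaurentSeries Qb)) →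
      (qExpand Qb q ((algebraMap Qb (FBar M) c₂ * u₂ ^ n : FBar M) : LaurentSeries Qb) =
          qExpand Qb q ((w f : FBar M) : LaurentSeries Qb) *
            ∏ i ∈ Finset.range q, scaleL (ζ ^ i) (f : LaurentSeries Qb)) →
      ∃ U : FBar M,
        U ^ n * galFun M φ (galFun M φ f) ^ (q ^ 2 + 1) =
          galFun M φ (galFun M φ (galFun M φ (galFun M φ f))) * f ^ (q ^ 2))
    (y : JZero M) (hy : n • y = 0)
    (hnorm : ∀ (D : Divisor.degZero (K := Qb) (F := FBar M)) (f : FBar M), f ≠ 0 →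
      (∀ v : Place Qb (FBar M), (n : ℤ) * (D : Divisor Qb (FBar M)) v = v.ord f) →
      y = Pic0.mk D →
      ∃ (u₁ u₂ : FBar M) (c₁ c₂ : Qb),
        (qExpand Qb q ((algebraMap Qb (FBar M) c₁ * u₁ ^ n : FBar M) : LaurentSeries Qb) =
            qExpand Qb q (f : LaurentSeries Qb) *
              ∏ i ∈ Finset.range q, scaleL (ζ ^ i) ((w f : FBar M) : LaurentSeries Qb)) ∧
        (qExpand Qb q ((algebraMap Qb (FBar M) c₂ * u₂ ^ n : FBar M) : LaurentSeries Qb) =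
            qExpand Qb q ((w f : FBar M) : LaurentSeries Qb) *
              ∏ i ∈ Finset.range q, scaleL (ζ ^ i) (f : LaurentSeries Qb))) :
    φ • φ • φ • φ • y - ((q ^ 2 + 1 : ℕ) : ℤ) • (φ • φ • y) + ((q ^ 2 : ℕ) : ℤ) • y = 0 := by
  have hn : n ≠ 0 := by
    rintro rfl
    exact hqn (dvd_zero q)
  have hy' : (n : ℤ) • y = 0 := by rwa [natCast_zsmul]
  obtain ⟨D, f, hf, rfl, hD⟩ := exists_div_of_zsmul_eq_zero (n : ℤ) y hy'
  obtain ⟨u₁, u₂, c₁, c₂, H1, H2⟩ := hnorm D f hf hD rfl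
  have hdiv : ∀ P : Place Qb (FBar M), (n : ℤ) ∣ P.ord f := fun P => ⟨_, (hD P).symm⟩
  obtain ⟨U, hU⟩ := hfun f u₁ u₂ c₁ c₂ hf hdiv H1 H2
  obtain ⟨g, hg⟩ : ∃ g : SemilinearAut Qb (FBar M),
      g = arithmeticGalois (modularFunctionFieldFull M) φ := ⟨_, rfl⟩
  have hgal : ∀ z : FBar M, galFun M φ z = g • z := fun z => by rw [hg]
  simp only [hgal] at hU
  have hsm : ∀ E : Divisor.degZero (K := Qb) (F := FBar M),
      φ • Pic0.mk E = Pic0.mk (SemilinearAut.degZeroSMulHom g E) := fun E => by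
    rw [hg]
    exact SemilinearAut.pic0_smul_mk _ E
  have hne : ∀ z : FBar M, z ≠ 0 → g • z ≠ 0 := fun z hz => by simpa using hz
  have hord : ∀ (E : Divisor.degZero (K := Qb) (F := FBar M)) (z : FBar M),
      (∀ v, (n : ℤ) * (E : Divisor Qb (FBar M)) v = v.ord z) →
      ∀ v, (n : ℤ) * (SemilinearAut.degZeroSMulHom g E : Divisor Qb (FBar M)) v
        = v.ord (g • z) :=
    fun E z hE v => mul_smul_divisor_apply_eq_ord g (n : ℤ) hE v
  obtain ⟨D₁, hD₁def⟩ : ∃ D₁, D₁ = SemilinearAut.degZeroSMulHom g D := ⟨_, rfl⟩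
  obtain ⟨D₂, hD₂def⟩ : ∃ D₂, D₂ = SemilinearAut.degZeroSMulHom g D₁ := ⟨_, rfl⟩
  obtain ⟨D₃, hD₃def⟩ : ∃ D₃, D₃ = SemilinearAut.degZeroSMulHom g D₂ := ⟨_, rfl⟩
  obtain ⟨D₄, hD₄def⟩ : ∃ D₄, D₄ = SemilinearAut.degZeroSMulHom g D₃ := ⟨_, rfl⟩
  obtain ⟨f₁, hf₁def⟩ : ∃ f₁ : FBar M, f₁ = g • f := ⟨_, rfl⟩
  obtain ⟨f₂, hf₂def⟩ : ∃ f₂ : FBar M, f₂ = g • f₁ := ⟨_, rfl⟩
  obtain ⟨f₃, hf₃def⟩ : ∃ f₃ : FBar M, f₃ = g • f₂ := ⟨_, rfl⟩
  obtain ⟨f₄, hf₄def⟩ : ∃ f₄ : FBar M, f₄ = g • f₃ := ⟨_, rfl⟩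
  rw [← hf₁def, ← hf₂def, ← hf₃def, ← hf₄def] at hU
  have hf₁ : f₁ ≠ 0 := hf₁def ▸ hne f hf
  have hf₂ : f₂ ≠ 0 := hf₂def ▸ hne f₁ hf₁
  have hf₃ : f₃ ≠ 0 := hf₃def ▸ hne f₂ hf₂
  have hf₄ : f₄ ≠ 0 := hf₄def ▸ hne f₃ hf₃
  have hD₁ : ∀ v, (n : ℤ) * (D₁ : Divisor Qb (FBar M)) v = v.ord f₁ := by
    rw [hD₁def, hf₁def]
    exact hord D f hD
  have hD₂ : ∀ v, (n : ℤ) * (D₂ : Divisor Qb (FBar M)) v = v.ord f₂ := by
    rw [hD₂def, hf₂def]
    exact hord D₁ f₁ hD₁
  have hD₃ : ∀ v, (n : ℤ) * (D₃ : Divisor Qb (FBar M)) v = v.ord f₃ := by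
    rw [hD₃def, hf₃def]
    exact hord D₂ f₂ hD₂
  have hD₄ : ∀ v, (n : ℤ) * (D₄ : Divisor Qb (FBar M)) v = v.ord f₄ := by
    rw [hD₄def, hf₄def]
    exact hord D₃ f₃ hD₃
  have e1 : φ • Pic0.mk D = Pic0.mk D₁ := by rw [hD₁def]; exact hsm D
  have e2 : φ • Pic0.mk D₁ = Pic0.mk D₂ := by rw [hD₂def]; exact hsm D₁
  have e3 : φ • Pic0.mk D₂ = Pic0.mk D₃ := by rw [hD₃def]; exact hsm D₂
  have e4 : φ • Pic0.mk D₃ = Pic0.mk D₄ := by rw [hD₄def]; exact hsm D₃
  rw [e1, e2, e3, e4]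
  -- `E = (q² + 1) D₂` with function `(φ² f)^(q² + 1)`
  have hE : ∀ v, (n : ℤ) * (((q ^ 2 + 1 : ℕ) • D₂ : Divisor.degZero (K := Qb) (F := FBar M)) :
      Divisor Qb (FBar M)) v = v.ord (f₂ ^ (q ^ 2 + 1)) := by
    intro v
    rw [AddSubgroup.coe_nsmul, Finsupp.smul_apply, nsmul_eq_mul,
      ← zpow_natCast f₂ (q ^ 2 + 1), Place.ord_zpow, ← hD₂ v]
    ring
  have key := mk_sub_add_nsmul_eq_zero_of_pow n hn (q ^ 2) D₄ ((q ^ 2 + 1 : ℕ) • D₂) D
    hf₄ (pow_ne_zero _ hf₂) hf hD₄ hE hD (u := U) hU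
  have e5 : Pic0.mk ((q ^ 2 + 1 : ℕ) • D₂) = ((q ^ 2 + 1 : ℕ) : ℤ) • Pic0.mk D₂ := by
    have : Pic0.mk ((q ^ 2 + 1 : ℕ) • D₂) = (q ^ 2 + 1 : ℕ) • Pic0.mk D₂ :=
      map_nsmul (QuotientAddGroup.mk' _) (q ^ 2 + 1) D₂
    rw [this]
    exact (natCast_zsmul (Pic0.mk D₂) (q ^ 2 + 1)).symm
  rw [e5, ← natCast_zsmul (Pic0.mk D) (q ^ 2)] at key
  exact key

/-- **class form of (P1) + (P2).** -/
theorem frobQuartic_class (w : FBar M ≃ₐ[Qb] FBar M) {q : ℕ} [NeZero q] (hq : q.Prime)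
    (hww : ∀ x : FBar M, w (w x) = x) (hkey : FrobToricKeyFor M w q)
    {n : ℕ} (hqn : ¬ q ∣ n)
    {A : ValuationSubring Qb} (hA : A.LiesOverPrime q)
    {φ : Qb ≃ₐ[ℚ] Qb} (hφ : A.IsFrobeniusAt φ q)
    (hwG : ∀ z : FBar M, w (galFun M φ z) = galFun M φ (w z))
    (ζ : Qbˣ) (hζ : IsPrimitiveRoot ζ q)
    (y : JZero M) (hy : n • y = 0)
    (hnorm : ∀ (D : Divisor.degZero (K := Qb) (F := FBar M)) (f : FBar M), f ≠ 0 →
      (∀ v : Place Qb (FBar M), (n : ℤ) * (D : Divisor Qb (FBar M)) v = v.ord f) →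
      y = Pic0.mk D →
      ∃ (u₁ u₂ : FBar M) (c₁ c₂ : Qb),
        (qExpand Qb q ((algebraMap Qb (FBar M) c₁ * u₁ ^ n : FBar M) : LaurentSeries Qb) =
            qExpand Qb q (f : LaurentSeries Qb) *
              ∏ i ∈ Finset.range q, scaleL (ζ ^ i) ((w f : FBar M) : LaurentSeries Qb)) ∧
        (qExpand Qb q ((algebraMap Qb (FBar M) c₂ * u₂ ^ n : FBar M) : LaurentSeries Qb) =
            qExpand Qb q ((w f : FBar M) : LaurentSeries Qb) *
              ∏ i ∈ Finset.range q, scaleL (ζ ^ i) (f : LaurentSeries Qb))) :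
    φ • φ • φ • φ • y - ((q ^ 2 + 1 : ℕ) : ℤ) • (φ • φ • y) + ((q ^ 2 : ℕ) : ℤ) • y = 0 :=
  frobQuartic_class_of_fun w hqn ζ
    (fun _ _ _ _ _ hf hdiv H1 H2 =>
      frobQuartic_fun w hq hww hkey hqn hA hφ hwG ζ hζ hf hdiv H1 H2)
    y hy hnorm

end Fermat.Agent.BadRed
end
end MergeWrap_Lib_BadRed_Bridge_FrobClass

section MergeWrap_Lib_BadRed_Bridge_NewNorm -- from Lib/BadRed/Bridge/NewNorm.lean

set_option autoImplicit false
set_option linter.style.haveILetI false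
set_option linter.unusedSectionVars false

/-!
# Cluster T / S35: the two norm relations for a `q`-new class  (statement: helper36)

`exists_norm_expansions_of_new` (**R3**): let `y ∈ J₀(N₀ q)` with `α_* y = 0` and
`α_* (w_* y) = 0` (`w = w_q`).  Then every Kummer generator `f` of `y` (`n E = div f`,
`y = [E]`) satisfies the two norm relations of `frobQuartic_class_of_fun`
(`Bridge/FrobClass.lean`) in expansion form:

    `c₁ u₁ⁿ (q^q) = f(q^q) · ∏_{b<q} (w f)(ζ^b q)`,   `c₂ u₂ⁿ (q^q) = (w f)(q^q) · ∏_{b<q} f(ζ^b q)`.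

Proof: (R2) `exists_norm_eq_of_pushAlpha_eq_zero` for `(f, E)` and, via
`F3DegW.isRootDiv_pushWAt`, for `(w f, E')`; `u_i := heckeAlphaBar (the R2 element)`
(`coe_heckeAlphaBar`: same expansion); the norm expansion `hζ` (from (R1) `norm_expansion_wAt`)
at `x = f` and at `x = w f` (with `wAt_wAt`).   Proof: helper16.
-/

noncomputable section

namespace Fermat.Agent.BadRed

open ModularCurve AlgebraicCurve Fermat.Agent.F3 Fermat.Agent.F3G Fermat.Agent.GaussInt
  Fermat.Agent.AtkinLehner Fermat.Agent.Kronecker Fermat.Agent.F3I2 Fermat.Agent.F3Deg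
  Fermat.Agent.F3DegW

local notation "Qb" => AlgebraicClosure ℚ

/-- **(R3)** the two norm relations for the Kummer generators of a `q`-new class. -/
theorem exists_norm_expansions_of_new {N₀ q : ℕ} [NeZero N₀] [NeZero q]
    (D : ALData) (hM : N₀ * q = D.Q * D.R) (ζ : Qbˣ)
    (hζ : ∀ x : FBar (N₀ * q),
      qExpand Qb q ((normAlong (heckeAlphaBar Qb N₀ q) x : FBar N₀) : LaurentSeries Qb) =
        qExpand Qb q (x : LaurentSeries Qb) *
          ∏ i ∈ Finset.range q,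
            scaleL (ζ ^ i) ((wAt D hM x : FBar (N₀ * q)) : LaurentSeries Qb))
    {n : ℕ} (hn : n ≠ 0) (y : JZero (N₀ * q))
    (h1 : pushAlpha N₀ q y = 0) (h2 : pushAlpha N₀ q (pushWAt D hM y) = 0)
    (E : Divisor.degZero (K := Qb) (F := FBar (N₀ * q))) (f : FBar (N₀ * q)) (hf : f ≠ 0)
    (hE : ∀ v : Place Qb (FBar (N₀ * q)),
      (n : ℤ) * (E : Divisor Qb (FBar (N₀ * q))) v = v.ord f)
    (hy : y = Pic0.mk E) :
    ∃ (u₁ u₂ : FBar (N₀ * q)) (c₁ c₂ : Qb),
      (qExpand Qb q ((algebraMap Qb (FBar (N₀ * q)) c₁ * u₁ ^ n : FBar (N₀ * q)) :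
            LaurentSeries Qb) =
          qExpand Qb q (f : LaurentSeries Qb) *
            ∏ i ∈ Finset.range q,
              scaleL (ζ ^ i) ((wAt D hM f : FBar (N₀ * q)) : LaurentSeries Qb)) ∧
      (qExpand Qb q ((algebraMap Qb (FBar (N₀ * q)) c₂ * u₂ ^ n : FBar (N₀ * q)) :
            LaurentSeries Qb) =
          qExpand Qb q ((wAt D hM f : FBar (N₀ * q)) : LaurentSeries Qb) *
            ∏ i ∈ Finset.range q, scaleL (ζ ^ i) (f : LaurentSeries Qb)) := by
  subst hy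
  have hR : IsRootDiv n f E := ⟨hf, hE⟩
  obtain ⟨u, c, -, hu⟩ := exists_norm_eq_of_pushAlpha_eq_zero hn hR h1
  obtain ⟨E', hE', hR'⟩ := isRootDiv_pushWAt D hM hR
  rw [hE'] at h2
  obtain ⟨u', c', -, hu'⟩ := exists_norm_eq_of_pushAlpha_eq_zero hn hR' h2
  have key : ∀ (v : FBar N₀) (d : Qb),
      ((algebraMap Qb (FBar (N₀ * q)) d * (heckeAlphaBar Qb N₀ q v) ^ n : FBar (N₀ * q)) :
        LaurentSeries Qb) = ((algebraMap Qb (FBar N₀) d * v ^ n : FBar N₀) : LaurentSeries Qb) := by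
    intro v d
    have h : (algebraMap Qb (FBar (N₀ * q)) d * (heckeAlphaBar Qb N₀ q v) ^ n : FBar (N₀ * q)) =
        heckeAlphaBar Qb N₀ q (algebraMap Qb (FBar N₀) d * v ^ n) := by
      rw [map_mul, map_pow, AlgHom.commutes]
    rw [h, coe_heckeAlphaBar]
  refine ⟨heckeAlphaBar Qb N₀ q u, heckeAlphaBar Qb N₀ q u', c, c', ?_, ?_⟩
  · rw [key, ← hu]
    exact hζ f
  · rw [key, ← hu']
    have h := hζ (wAt D hM f)
    rwa [wAt_wAt] at h

end Fermat.Agent.BadRed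
end
end MergeWrap_Lib_BadRed_Bridge_NewNorm

section MergeWrap_Lib_BadRed_Bridge_NewQuartic -- from Lib/BadRed/Bridge/NewQuartic.lean

set_option autoImplicit false
set_option linter.style.haveILetI false
set_option linter.unusedSectionVars false

/-!
# Cluster T / S35: the quartic identity on the `q`-new part of `J₀(N₀ q)`  (statement: helper36)

`frobQuartic_new`: let `q ∤ N₀` be prime, `w = w_q` at level `N₀ q`, `y ∈ J₀(N₀ q)[n]`, `q ∤ n`,
with `α_* y = 0` and `α_* (w_* y) = 0`.  Then for every Frobenius element `φ` at a place `A | q`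

    `φ⁴ y - (q² + 1) φ² y + q² y = 0`.

Input: the function form `FrobToricKeyAt D'` of (P2) at the Atkin–Lehner data with `AuxOK`
(`Bridge/FrobTargets.lean`, `Bridge/AuxLevel.lean`).

Proof (wiring):
* `ζ`, `hζ` from (R1) `norm_expansion_wAt`; `hnorm` from (R3) `exists_norm_expansions_of_new`;
* `frobQuartic_class_of_fun (wAt D hM) hqn ζ hfun y hy hnorm` (`Bridge/FrobClass.lean`) with
  `hfun` from
  - `AuxOK D`: `frobQuartic_fun (wAt D hM) hq (wAt_wAt ..) (frobToricKeyFor_wAt D hM _ (hkey D _))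
      hqn hA hφ (wAt_galFun ..) ζ hζ hf hdiv H1 H2`;
  - `q = 2`, `3 ∤ N₀` (`ℓ = 3`) and `q = 3`, `2 ∤ N₀` (`ℓ = 2`):
    `frobQuartic_fun_wAt_of_aux D D' ..` (`Bridge/AuxNew.lean`) with
    `D'` from `ALData.exists_of_coprime` (`D'.Q = q`, `D'.R = N₀ * ℓ`); `hcop` from `hqn`.
  Model for the case distinction: `AuxLevel.inertiaPowSq_of_toricKeyAt_aux`.   (proved: helper94)
-/

noncomputable section

namespace Fermat.Agent.BadRed

open ModularCurve AlgebraicCurve Fermat.Agent.F3 Fermat.Agent.F3G Fermat.Agent.GaussInt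
  Fermat.Agent.AtkinLehner Fermat.Agent.Kronecker Fermat.Agent.F3I2 Fermat.Agent.F3Deg
  Fermat.Agent.F3DegW

local notation "Qb" => AlgebraicClosure ℚ

set_option synthInstance.maxHeartbeats 400000 in
set_option maxHeartbeats 1000000 in
/-- **the quartic identity on the `q`-new part.** -/
theorem frobQuartic_new {N₀ q : ℕ} [NeZero N₀] [NeZero q] (hq : q.Prime) (hqN : ¬ q ∣ N₀)
    (hkey : ∀ D' : ALData, AuxLevel.AuxOK D' → FrobToricKeyAt D')
    (D : ALData) (hQ : D.Q = q) (hR : D.R = N₀) (hM : N₀ * q = D.Q * D.R)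
    {n : ℕ} (hqn : ¬ q ∣ n)
    {A : ValuationSubring Qb} (hA : A.LiesOverPrime q)
    {φ : Qb ≃ₐ[ℚ] Qb} (hφ : A.IsFrobeniusAt φ q)
    (y : JZero (N₀ * q)) (hy : n • y = 0)
    (h1 : pushAlpha N₀ q y = 0) (h2 : pushAlpha N₀ q (pushWAt D hM y) = 0) :
    φ • φ • φ • φ • y - ((q ^ 2 + 1 : ℕ) : ℤ) • (φ • φ • y) + ((q ^ 2 : ℕ) : ℤ) • y = 0 := by
  subst hQ hR
  obtain ⟨ζ, hζ, hexp⟩ := norm_expansion_wAt hq hqN D rfl rfl hM
  have hn : n ≠ 0 := by
    rintro rfl
    exact hqn (dvd_zero _)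
  have hR0 : 0 < D.R := Nat.pos_of_ne_zero (NeZero.ne D.R)
  have hcop : Nat.Coprime D.Q D.R := (Nat.Prime.coprime_iff_not_dvd hq).mpr hqN
  refine frobQuartic_class_of_fun (wAt D hM) hqn ζ ?_ y hy
    (fun E f hf hE hyE => exists_norm_expansions_of_new D hM ζ hexp hn y h1 h2 E f hf hE hyE)
  intro f u₁ u₂ c₁ c₂ hf hdiv H1 H2
  by_cases haux : AuxLevel.AuxOK D
  · exact frobQuartic_fun (wAt D hM) hq (wAt_wAt D hM)
      (frobToricKeyFor_wAt D hM hq (hkey D haux)) hqn hA hφ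
      (fun z => wAt_galFun D hM φ z) ζ hζ hf hdiv H1 H2
  · by_cases h2 : D.Q = 2
    · -- `q = 2`, `3 ∤ N₀`: descend from the level `3 N`
      have h3R : ¬ 3 ∣ D.R := fun h =>
        haux ⟨fun _ => h, fun h3 => absurd (h2.symm.trans h3) (by norm_num)⟩
      haveI : NeZero (3 : ℕ) := ⟨by norm_num⟩
      have h3M : ¬ 3 ∣ D.R * D.Q := by
        intro h
        rcases (Nat.Prime.dvd_mul Nat.prime_three).mp h with h | h
        · exact h3R h
        · rw [h2] at h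
          norm_num at h
      have hcop' : Nat.Coprime D.Q (D.R * 3) :=
        Nat.Coprime.mul_right hcop (by rw [h2]; norm_num)
      obtain ⟨D', hQ', hR'⟩ := ALData.exists_of_coprime hq.pos (Nat.mul_pos hR0 (by norm_num))
        hcop'
      have haux' : AuxLevel.AuxOK D' :=
        ⟨fun _ => by rw [hR']; exact Dvd.intro_left _ rfl,
          fun h3 => absurd (h2.symm.trans (hQ'.symm.trans h3)) (by norm_num)⟩
      have hM' : D.R * D.Q * 3 = D'.Q * D'.R := by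
        rw [hQ', hR']
        ring
      have hn4 : Nat.Coprime (3 + 1) n := by
        have : Nat.Coprime 2 n :=
          (Nat.Prime.coprime_iff_not_dvd Nat.prime_two).mpr (by rwa [h2] at hqn)
        have e : (3 + 1 : ℕ) = 2 ^ 2 := by norm_num
        rw [e]
        exact Nat.Coprime.pow_left 2 this
      exact frobQuartic_fun_wAt_of_aux D D' Nat.prime_three h3M hM hM' hQ' hR' hq
        (hkey D' haux') hqn hn4 hA hφ ζ hζ hf hdiv H1 H2
    · by_cases h3 : D.Q = 3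
      · -- `q = 3`, `2 ∤ N₀`: descend from the level `2 N`
        have h2R : ¬ 2 ∣ D.R := fun h =>
          haux ⟨fun h2' => absurd h2' h2, fun _ => h⟩
        haveI : NeZero (2 : ℕ) := ⟨by norm_num⟩
        have h2M : ¬ 2 ∣ D.R * D.Q := by
          intro h
          rcases (Nat.Prime.dvd_mul Nat.prime_two).mp h with h | h
          · exact h2R h
          · rw [h3] at h
            norm_num at h
        have hcop' : Nat.Coprime D.Q (D.R * 2) :=
          Nat.Coprime.mul_right hcop (by rw [h3]; norm_num)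
        obtain ⟨D', hQ', hR'⟩ := ALData.exists_of_coprime hq.pos
          (Nat.mul_pos hR0 (by norm_num)) hcop'
        have haux' : AuxLevel.AuxOK D' :=
          ⟨fun h2' => absurd (hQ'.symm.trans h2') h2,
            fun _ => by rw [hR']; exact Dvd.intro_left _ rfl⟩
        have hM' : D.R * D.Q * 2 = D'.Q * D'.R := by
          rw [hQ', hR']
          ring
        have hn3 : Nat.Coprime (2 + 1) n :=
          (Nat.Prime.coprime_iff_not_dvd Nat.prime_three).mpr (by rwa [h3] at hqn)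
        exact frobQuartic_fun_wAt_of_aux D D' Nat.prime_two h2M hM hM' hQ' hR' hq
          (hkey D' haux') hqn hn3 hA hφ ζ hζ hf hdiv H1 H2
      · exact absurd ⟨fun h => absurd h h2, fun h => absurd h h3⟩ haux

end Fermat.Agent.BadRed
end
end MergeWrap_Lib_BadRed_Bridge_NewQuartic

section MergeWrap_S35_NewDatum -- from S35/NewDatum.lean

set_option autoImplicit false
set_option linter.style.haveILetI false
set_option linter.unusedSectionVars false
set_option linter.unusedVariables false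

/-!
# S35 (cluster T): the level-`M` layer of the `q`-new part  (helper36)

For a level `M` and a prime `q ‖ M` write `M = N₁ q`.  A `NewDatum M` packages `q`, `N₁`, the
equation `M = N₁ * q` and Atkin–Lehner data `D` with `D.Q = q`, `D.R = N₁`.  For a datum `d`:

* `d.degA, d.degB : J₀(M) →+ J₀(N₁)`  : `α_*` and `α_* ∘ w_*` (with the level cast);
* `d.corA, d.corB : HomPar M →ₗ[ℤ] HomPar N₁` : the two corestrictions of cluster L;
* `degA_smul`, `degB_smul`   : Galois equivariance;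
* `degA_kappaC`, `degB_kappaC` : `degA (κ_n c) = κ_n (corA c)`, `degB (κ_n c) = κ_n (corB c)`;
* `newVector`                : eigenvectors of a newform of level `M` are killed by `corA`, `corB`;
* `frobQuartic`              : the quartic identity on `ker degA ∩ ker degB ∩ J₀(M)[n]`.

`newU M : J₀(M) →ₗ[ℤ] ∏_{q ‖ M} J₀(M/q)²` is the product of the `(degA, degB)`: the kernel map
`u` of `S35/LatticeCond.lean`.
-/

noncomputable section

namespace Fermat.Agent.S35

open ModularCurve AlgebraicCurve CongruenceSubgroup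
open Fermat.Agent.F3 Fermat.Agent.F3G Fermat.Agent.F3I2 Fermat.Agent.F3EC Fermat.Agent.F3Deg
  Fermat.Agent.F3DegP Fermat.Agent.F3DegW Fermat.Agent.LDeg Fermat.Agent.BadRed
open Fermat.Agent.AtkinLehner (ALData)
open scoped TensorProduct

local notation "Qb" => AlgebraicClosure ℚ

/-! ### level casts -/

/-- the level cast on `J₀`. -/
def castJ {M M' : ℕ} (h : M = M') : JZero M →+ JZero M' := by
  subst h
  exact AddMonoidHom.id _

@[simp] theorem castJ_rfl {M : ℕ} : castJ (rfl : M = M) = AddMonoidHom.id _ := rfl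

/-- the level cast on `Hom_par(Γ₀(M), ℤ)`. -/
def castH {M M' : ℕ} (h : M = M') : HomPar M →ₗ[ℤ] HomPar M' := by
  subst h
  exact LinearMap.id

@[simp] theorem castH_rfl {M : ℕ} : castH (rfl : M = M) = LinearMap.id := rfl

section At

variable {M N₁ q : ℕ} [NeZero M] [NeZero N₁] [NeZero q]

/-- `α_*` at level `M = N₁ q`. -/
def pushAlphaAt (h : M = N₁ * q) : JZero M →+ JZero N₁ := (pushAlpha N₁ q).comp (castJ h)

/-- the corestriction `β₁` at level `M = N₁ q`. -/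
def coresParAt (h : M = N₁ * q) : HomPar M →ₗ[ℤ] HomPar N₁ := (coresPar N₁ q).comp (castH h)

/-- the corestriction `β₂` at level `M = N₁ q`. -/
def coresParDAt (h : M = N₁ * q) : HomPar M →ₗ[ℤ] HomPar N₁ := (coresParD N₁ q).comp (castH h)

theorem pushAlphaAt_smul (h : M = N₁ * q) (σ : Qb ≃ₐ[ℚ] Qb) (y : JZero M) :
    pushAlphaAt h (σ • y) = σ • pushAlphaAt h y := by
  subst h
  exact pushAlpha_smul N₁ q σ y

theorem pushAlphaAt_kappaC (h : M = N₁ * q) (hq : q.Prime) (hqN : ¬ q ∣ N₁) (n : ℕ)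
    (c : HomPar M) :
    pushAlphaAt h ((kappaC M n c : Jtors M n) : JZero M) =
      ((kappaC N₁ n (coresParAt h c) : Jtors N₁ n) : JZero N₁) := by
  subst h
  exact kappaC_pushAlpha hq hqN n c

theorem pushAlphaAt_pushWAt_kappaC (h : M = N₁ * q) (hq : q.Prime) (hqN : ¬ q ∣ N₁)
    (D : ALData) (hQ : D.Q = q) (hR : D.R = N₁) (hM : M = D.Q * D.R) (n : ℕ) (c : HomPar M) :
    pushAlphaAt h (pushWAt D hM ((kappaC M n c : Jtors M n) : JZero M)) =
      ((kappaC N₁ n (coresParDAt h c) : Jtors N₁ n) : JZero N₁) := by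
  subst h
  exact pushAlpha_pushWAt_kappaC D hq hqN hQ hR hM n c

/-- **WP C at level `M = N₁ q`.** -/
theorem newVector_cast (h : M = N₁ * q) (hNV : NewVectorAt N₁ q)
    (g : CuspForm (Gamma0 M) 2) (hg : g.IsNewform)
    (S : Finset ℕ) (hS : ∀ r : ℕ, r.Prime → r ∣ M → r ∈ S)
    (O : Type) [CommRing O] [IsDomain O] [CharZero O]
    (chig : CuspForm.heckeAlgebra M 2 (↑S : Set ℕ) →+* ℂ)
    (hchig : ∀ (ℓ : ℕ) (hℓ : ℓ.Prime) (hℓM : ¬ ℓ ∣ M) (hℓS : ℓ ∉ (↑S : Set ℕ)),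
      chig (CuspForm.heckeAlgebra.T hℓ hℓM hℓS) = ModularFormClass.qCoeff g ℓ)
    (iota : chig.range →+* O) (x : O ⊗[ℤ] HomPar M)
    (hx : ∀ (ℓ : ℕ) (hℓ : ℓ.Prime) (hℓM : ¬ ℓ ∣ M) (hℓS : ℓ ∉ (↑S : Set ℕ)),
      (heckeHom M ⟨ℓ, hℓ⟩).baseChange O x =
        (iota.comp chig.rangeRestrict) (CuspForm.heckeAlgebra.T hℓ hℓM hℓS) • x) :
    (coresParAt h).baseChange O x = 0 ∧ (coresParDAt h).baseChange O x = 0 := by
  subst h
  exact hNV g hg S hS O chig hchig iota x hx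

/-- **the quartic identity at level `M = N₁ q`.** -/
theorem frobQuartic_cast (h : M = N₁ * q) (hq : q.Prime) (hqN : ¬ q ∣ N₁)
    (hkey : ∀ D' : ALData, AuxLevel.AuxOK D' → FrobToricKeyAt D')
    (D : ALData) (hQ : D.Q = q) (hR : D.R = N₁) (hM : M = D.Q * D.R)
    {n : ℕ} (hqn : ¬ q ∣ n)
    {A : ValuationSubring Qb} (hA : A.LiesOverPrime q)
    {φ : Qb ≃ₐ[ℚ] Qb} (hφ : A.IsFrobeniusAt φ q)
    (y : JZero M) (hy : n • y = 0)
    (h1 : pushAlphaAt h y = 0) (h2 : pushAlphaAt h (pushWAt D hM y) = 0) :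
    φ • φ • φ • φ • y - ((q ^ 2 + 1 : ℕ) : ℤ) • (φ • φ • y) + ((q ^ 2 : ℕ) : ℤ) • y = 0 := by
  subst h
  exact frobQuartic_new hq hqN hkey D hQ hR hM hqn hA hφ y hy h1 h2

end At

end Fermat.Agent.S35
end
end MergeWrap_S35_NewDatum

section MergeWrap_S35_EigenNew -- from S35/EigenNew.lean

set_option autoImplicit false
set_option linter.unusedSectionVars false

noncomputable section

namespace Fermat.Agent.S35

open CongruenceSubgroup ModularCurve ModularCurve.Period Fermat.Agent.F3EC IsLocalRing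
open Fermat.Agent.F3Deg
open scoped TensorProduct

variable (M : ℕ) [NeZero M] (p : ℕ) (O : Type*) [CommRing O]

/-- the explicit eigen-class `x n = (O ⊗ κ_{pⁿ}) x₀`. -/
def newClass (x₀ : O ⊗[ℤ] HomPar M) (n : ℕ) : O ⊗[ℤ] Fermat.Agent.F3.Jtors M (p ^ n) :=
  (kappaC M (p ^ n)).baseChange O x₀

variable {M p O}

theorem newClass_def (x₀ : O ⊗[ℤ] HomPar M) (n : ℕ) :
    newClass M p O x₀ n = (kappaC M (p ^ n)).baseChange O x₀ := rfl

/-- `hx0`: the eigen-class of a nonzero vector is not identically zero. -/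
theorem newClass_ne_zero [IsDomain O] [WfDvdMonoid O] [Module.Flat ℤ O] (hp : p.Prime)
    (hpu : ¬ IsUnit (p : O)) {x₀ : O ⊗[ℤ] HomPar M} (hx₀ : x₀ ≠ 0) :
    ∃ n, newClass M p O x₀ n ≠ 0 := by
  by_contra hcon
  push Not at hcon
  apply hx₀
  exact Fermat.Agent.F3EP.eq_zero_of_forall_pow_smul hpu x₀ fun n =>
    Fermat.Agent.F3EP.exists_eq_smul_of_baseChange_eq_zero O (kappaC M (p ^ n)) (p ^ n)
      (fun c hc => by
        obtain ⟨c', hc'⟩ := kappaC_ker (pow_pos hp.pos n) hc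
        exact ⟨c', by rw [hc', natCast_zsmul]⟩) x₀ (hcon n)

/-- `hcompat`. -/
theorem newClass_compat (hp : p.Prime) (x₀ : O ⊗[ℤ] HomPar M) (n : ℕ) :
    (Fermat.Agent.S30.mulPTors M p n).baseChange O (newClass M p O x₀ (n + 1)) =
      newClass M p O x₀ n := by
  rw [newClass_def, newClass_def, ← LinearMap.comp_apply, ← LinearMap.baseChange_comp]
  congr 2
  ext c
  rw [LinearMap.comp_apply, Fermat.Agent.S30.mulPTors_coe,
    Fermat.Agent.F3EP.coe_kappa_congr (kappaC M) (pow_succ' p n) c]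
  exact kappaC_compat (pow_pos hp.pos n) hp.pos c

/-- `heig`. -/
theorem newClass_eig {a : O} (ℓ : Nat.Primes) (hℓM : ¬ (ℓ : ℕ) ∣ M) {x₀ : O ⊗[ℤ] HomPar M}
    (hx : (heckeHom M ℓ).baseChange O x₀ = a • x₀) (n : ℕ) :
    (Fermat.Agent.F3.heckeTors M (p ^ n) ℓ).baseChange O (newClass M p O x₀ n) =
      a • newClass M p O x₀ n := by
  have hcomm : (Fermat.Agent.F3.heckeTors M (p ^ n) ℓ).baseChange O ∘ₗ
      (kappaC M (p ^ n)).baseChange O =
      (kappaC M (p ^ n)).baseChange O ∘ₗ (heckeHom M ℓ).baseChange O := by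
    rw [← LinearMap.baseChange_comp, ← LinearMap.baseChange_comp]
    congr 1
    ext c
    exact congrArg Subtype.val (kappaC_hecke (p ^ n) ℓ hℓM c).symm
  have h1 := congrArg (fun f => f x₀) hcomm
  simp only [LinearMap.comp_apply] at h1
  rw [newClass_def, h1, hx, map_smul]

/-- `hux`, general form: a kernel condition `u` on `J₀(M)` that factors on the image of `κ`
through a map `t` on `Hom_par` killing `x₀` kills the eigen-class. -/
theorem newClass_ker {J' H : Type*} [AddCommGroup J'] [AddCommGroup H]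
    (u : JZero M →ₗ[ℤ] J') (t : HomPar M →ₗ[ℤ] H) (n : ℕ) (v : H →ₗ[ℤ] J')
    (h : ∀ c : HomPar M,
      u ((kappaC M (p ^ n) c : Fermat.Agent.F3.Jtors M (p ^ n)) : JZero M) = v (t c))
    {x₀ : O ⊗[ℤ] HomPar M} (ht : t.baseChange O x₀ = 0) :
    (u ∘ₗ (Fermat.Agent.F3.Jtors M (p ^ n)).subtype).baseChange O (newClass M p O x₀ n) = 0 := by
  rw [newClass_def, ← LinearMap.comp_apply, ← LinearMap.baseChange_comp]
  have e : (u ∘ₗ (Fermat.Agent.F3.Jtors M (p ^ n)).subtype) ∘ₗ kappaC M (p ^ n) = v ∘ₗ t := by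
    ext c
    exact h c
  rw [e, LinearMap.baseChange_comp, LinearMap.comp_apply, ht, map_zero]

end Fermat.Agent.S35
end
end MergeWrap_S35_EigenNew

section MergeWrap_S35_KernelAt -- from S35/KernelAt.lean

set_option autoImplicit false
set_option linter.unusedSectionVars false
set_option linter.style.haveILetI false

noncomputable section

namespace Fermat.Agent.S35

open ModularCurve AlgebraicCurve CongruenceSubgroup
open Fermat.Agent.F3 Fermat.Agent.F3G Fermat.Agent.F3I2 Fermat.Agent.F3EC Fermat.Agent.F3Deg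
  Fermat.Agent.F3DegP Fermat.Agent.F3DegW Fermat.Agent.LDeg Fermat.Agent.BadRed
open Fermat.Agent.AtkinLehner (ALData)
open scoped TensorProduct

local notation "Qb" => AlgebraicClosure ℚ

/-! ### base change of products -/

section BC

variable {O : Type*} [CommRing O] {H₀ : Type*} [AddCommGroup H₀]

theorem baseChange_prod_eq_zero {H₁ H₂ : Type*} [AddCommGroup H₁] [AddCommGroup H₂]
    (t₁ : H₀ →ₗ[ℤ] H₁) (t₂ : H₀ →ₗ[ℤ] H₂) (x : O ⊗[ℤ] H₀)
    (h₁ : t₁.baseChange O x = 0) (h₂ : t₂.baseChange O x = 0) :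
    (LinearMap.prod t₁ t₂).baseChange O x = 0 := by
  have e : LinearMap.prod t₁ t₂ =
      LinearMap.inl ℤ H₁ H₂ ∘ₗ t₁ + LinearMap.inr ℤ H₁ H₂ ∘ₗ t₂ := by
    ext c <;> simp
  rw [e, LinearMap.baseChange_add, LinearMap.add_apply, LinearMap.baseChange_comp,
    LinearMap.baseChange_comp, LinearMap.comp_apply, LinearMap.comp_apply, h₁, h₂, map_zero,
    map_zero, add_zero]

theorem baseChange_pi_eq_zero {ι : Type*} [Finite ι] {H : ι → Type*}
    [∀ i, AddCommGroup (H i)] (t : ∀ i, H₀ →ₗ[ℤ] H i) (x : O ⊗[ℤ] H₀)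
    (h : ∀ i, (t i).baseChange O x = 0) :
    (LinearMap.pi t).baseChange O x = 0 := by
  classical
  haveI : Fintype ι := Fintype.ofFinite ι
  have e : LinearMap.pi t = ∑ i, LinearMap.single ℤ H i ∘ₗ t i := by
    ext c j
    simp [LinearMap.sum_apply, Finset.sum_apply]
  have e2 : (LinearMap.pi t).baseChange O =
      ∑ i, (LinearMap.single ℤ H i ∘ₗ t i).baseChange O := by
    rw [e]
    exact map_sum (LinearMap.baseChangeHom ℤ O H₀ (∀ i, H i)) _ _
  rw [e2, LinearMap.sum_apply]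
  refine Finset.sum_eq_zero fun i _ => ?_
  rw [LinearMap.baseChange_comp, LinearMap.comp_apply, h i, map_zero]

end BC

/-! ### the index set and the data -/

/-- the primes `q ≠ p` with `q ‖ M`. -/
abbrev NewIdx (M p : ℕ) : Type := {q : ℕ // q.Prime ∧ q ≠ p ∧ q ∣ M ∧ ¬ q ^ 2 ∣ M}

namespace NewIdx

variable {M p : ℕ} [NeZero M] (i : NewIdx M p)

theorem prime : i.1.Prime := i.2.1
theorem ne_p : i.1 ≠ p := i.2.2.1
theorem dvd : i.1 ∣ M := i.2.2.2.1
theorem not_sq_dvd : ¬ i.1 ^ 2 ∣ M := i.2.2.2.2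

/-- `M = (M / q) * q`. -/
theorem level_eq : M = M / i.1 * i.1 := (Nat.div_mul_cancel i.dvd).symm

theorem neZero_q : NeZero i.1 := ⟨i.prime.ne_zero⟩

theorem neZero_N : NeZero (M / i.1) :=
  ⟨fun h => NeZero.ne M (by rw [i.level_eq, h, zero_mul])⟩

theorem not_dvd_N : ¬ i.1 ∣ M / i.1 := by
  intro h
  apply i.not_sq_dvd
  obtain ⟨c, hc⟩ := h
  refine ⟨c, ?_⟩
  conv_lhs => rw [i.level_eq, hc]
  ring

theorem exists_data : ∃ D : ALData, D.Q = i.1 ∧ D.R = M / i.1 :=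
  ALData.exists_of_coprime i.prime.pos (Nat.pos_of_ne_zero i.neZero_N.ne)
    ((Nat.Prime.coprime_iff_not_dvd i.prime).mpr i.not_dvd_N)

/-- the Atkin–Lehner data at `q`. -/
def data : ALData := i.exists_data.choose

theorem data_Q : i.data.Q = i.1 := i.exists_data.choose_spec.1
theorem data_R : i.data.R = M / i.1 := i.exists_data.choose_spec.2

theorem level_eq_data : M = i.data.Q * i.data.R := by
  rw [i.data_Q, i.data_R, mul_comm]
  exact i.level_eq

theorem not_dvd_pow (n : ℕ) (hp : p.Prime) : ¬ i.1 ∣ p ^ n := fun h =>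
  i.ne_p ((Nat.prime_dvd_prime_iff_eq i.prime hp).mp (i.prime.dvd_of_dvd_pow h))

instance finite (M p : ℕ) [NeZero M] : Finite (NewIdx M p) := by
  have hfin : {q : ℕ | q.Prime ∧ q ≠ p ∧ q ∣ M ∧ ¬ q ^ 2 ∣ M}.Finite :=
    ((Finset.range (M + 1)).finite_toSet).subset fun q hq => by
      simp only [Finset.coe_range, Set.mem_Iio]
      exact Nat.lt_succ_of_le (Nat.le_of_dvd (Nat.pos_of_ne_zero (NeZero.ne M)) hq.2.2.1)
  exact hfin.to_subtype

/-- `α_*` at `q`. -/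
def degA : JZero M →+ JZero (M / i.1) :=
  haveI := i.neZero_q
  haveI := i.neZero_N
  pushAlphaAt i.level_eq

/-- `α_* ∘ w_*` at `q`. -/
def degB : JZero M →+ JZero (M / i.1) :=
  i.degA.comp (pushWAt i.data i.level_eq_data)

/-- the corestriction `β₁` at `q`. -/
def corA : HomPar M →ₗ[ℤ] HomPar (M / i.1) :=
  haveI := i.neZero_q
  haveI := i.neZero_N
  coresParAt i.level_eq

/-- the corestriction `β₂` at `q`. -/
def corB : HomPar M →ₗ[ℤ] HomPar (M / i.1) :=
  haveI := i.neZero_q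
  haveI := i.neZero_N
  coresParDAt i.level_eq

theorem degA_smul (σ : Qb ≃ₐ[ℚ] Qb) (y : JZero M) : i.degA (σ • y) = σ • i.degA y :=
  haveI := i.neZero_q
  haveI := i.neZero_N
  pushAlphaAt_smul i.level_eq σ y

theorem degB_smul (σ : Qb ≃ₐ[ℚ] Qb) (y : JZero M) : i.degB (σ • y) = σ • i.degB y := by
  unfold degB
  rw [AddMonoidHom.comp_apply, pushWAt_smul, degA_smul]
  rfl

theorem degA_kappaC (n : ℕ) (c : HomPar M) :
    haveI := i.neZero_N
    i.degA ((kappaC M n c : Jtors M n) : JZero M) =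
      ((kappaC (M / i.1) n (i.corA c) : Jtors (M / i.1) n) : JZero (M / i.1)) :=
  haveI := i.neZero_q
  haveI := i.neZero_N
  pushAlphaAt_kappaC i.level_eq i.prime i.not_dvd_N n c

theorem degB_kappaC (n : ℕ) (c : HomPar M) :
    haveI := i.neZero_N
    i.degB ((kappaC M n c : Jtors M n) : JZero M) =
      ((kappaC (M / i.1) n (i.corB c) : Jtors (M / i.1) n) : JZero (M / i.1)) :=
  haveI := i.neZero_q
  haveI := i.neZero_N
  pushAlphaAt_pushWAt_kappaC i.level_eq i.prime i.not_dvd_N i.data i.data_Q i.data_R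
    i.level_eq_data n c

end NewIdx

/-! ### the kernel map -/

/-- the target of the kernel map. -/
abbrev NewTarget (M p : ℕ) : Type := (i : NewIdx M p) → JZero (M / i.1) × JZero (M / i.1)

/-- **the kernel map** `u`: `y ↦ (α_* y, α_* w_* y)` at all primes `q ≠ p`, `q ‖ M`. -/
def newU (M p : ℕ) [NeZero M] : JZero M →ₗ[ℤ] NewTarget M p :=
  LinearMap.pi fun i => LinearMap.prod i.degA.toIntLinearMap i.degB.toIntLinearMap

variable {M p : ℕ} [NeZero M]

theorem newU_apply (y : JZero M) (i : NewIdx M p) : newU M p y i = (i.degA y, i.degB y) := rfl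

theorem newU_eq_zero_iff (y : JZero M) :
    newU M p y = 0 ↔ ∀ i : NewIdx M p, i.degA y = 0 ∧ i.degB y = 0 := by
  constructor
  · intro h i
    have := congrFun h i
    rw [newU_apply] at this
    exact ⟨congrArg Prod.fst this, congrArg Prod.snd this⟩
  · intro h
    funext i
    rw [newU_apply, (h i).1, (h i).2]
    rfl

/-- **`hu`**: the kernel of `u` is Galois-stable. -/
theorem newU_smul (σ : Qb ≃ₐ[ℚ] Qb) (y : JZero M) (h : newU M p y = 0) :
    newU M p (σ • y) = 0 := by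
  rw [newU_eq_zero_iff] at h ⊢
  intro i
  have h0 : σ • (0 : JZero (M / i.1)) = 0 := smul_zero (A := JZero (M / i.1)) σ
  exact ⟨by rw [i.degA_smul, (h i).1]; exact h0, by rw [i.degB_smul, (h i).2]; exact h0⟩

/-- **`hux`**, abstract form: an `x₀` killed by all corestrictions has its eigen-class killed
by `𝒪 ⊗ u`. -/
theorem newU_newClass_of {O : Type*} [CommRing O] {x₀ : O ⊗[ℤ] HomPar M}
    (hx₀ : ∀ i : NewIdx M p, i.corA.baseChange O x₀ = 0 ∧ i.corB.baseChange O x₀ = 0) (n : ℕ) :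
    (newU M p ∘ₗ (Jtors M (p ^ n)).subtype).baseChange O (newClass M p O x₀ n) = 0 := by
  refine newClass_ker (newU M p)
    (LinearMap.pi fun i : NewIdx M p => LinearMap.prod i.corA i.corB) n
    (LinearMap.pi fun i : NewIdx M p =>
      haveI := i.neZero_N
      (LinearMap.prodMap ((Jtors (M / i.1) (p ^ n)).subtype ∘ₗ kappaC (M / i.1) (p ^ n))
        ((Jtors (M / i.1) (p ^ n)).subtype ∘ₗ kappaC (M / i.1) (p ^ n))) ∘ₗ
        LinearMap.proj i) ?_ ?_
  · intro c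
    funext i
    rw [newU_apply, i.degA_kappaC, i.degB_kappaC]
    rfl
  · exact baseChange_pi_eq_zero _ x₀ fun i =>
      baseChange_prod_eq_zero _ _ x₀ (hx₀ i).1 (hx₀ i).2

/-- **`hux`**: the eigen-class of a newform of level `M` is killed by `𝒪 ⊗ u`. -/
theorem newU_newClass
    (hNV : ∀ (N q : ℕ) [NeZero N] [NeZero q], q.Prime → ¬ q ∣ N → NewVectorAt N q)
    (g : CuspForm (Gamma0 M) 2) (hg : g.IsNewform)
    (S : Finset ℕ) (hS : ∀ r : ℕ, r.Prime → r ∣ M → r ∈ S)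
    (O : Type) [CommRing O] [IsDomain O] [CharZero O]
    (chig : CuspForm.heckeAlgebra M 2 (↑S : Set ℕ) →+* ℂ)
    (hchig : ∀ (ℓ : ℕ) (hℓ : ℓ.Prime) (hℓM : ¬ ℓ ∣ M) (hℓS : ℓ ∉ (↑S : Set ℕ)),
      chig (CuspForm.heckeAlgebra.T hℓ hℓM hℓS) = ModularFormClass.qCoeff g ℓ)
    (iota : chig.range →+* O) (x₀ : O ⊗[ℤ] HomPar M)
    (hx : ∀ (ℓ : ℕ) (hℓ : ℓ.Prime) (hℓM : ¬ ℓ ∣ M) (hℓS : ℓ ∉ (↑S : Set ℕ)),
      (heckeHom M ⟨ℓ, hℓ⟩).baseChange O x₀ =
        (iota.comp chig.rangeRestrict) (CuspForm.heckeAlgebra.T hℓ hℓM hℓS) • x₀) (n : ℕ) :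
    (newU M p ∘ₗ (Jtors M (p ^ n)).subtype).baseChange O (newClass M p O x₀ n) = 0 :=
  newU_newClass_of (fun i =>
    haveI := i.neZero_q
    haveI := i.neZero_N
    newVector_cast i.level_eq (hNV (M / i.1) i.1 i.prime i.not_dvd_N) g hg S hS O chig hchig
      iota x₀ hx) n

/-- **`hquart`**: the quartic identity on `ker u ∩ J₀(M)[pⁿ]`. -/
theorem newU_quartic (hp : p.Prime)
    (hkey : ∀ D' : ALData, AuxLevel.AuxOK D' → FrobToricKeyAt D')
    (n q : ℕ) (hq : q.Prime) (hqp : q ≠ p) (hqM : q ∣ M) (hq2 : ¬ q ^ 2 ∣ M)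
    (A : ValuationSubring Qb) (hA : A.LiesOverPrime q)
    (φ : Qb ≃ₐ[ℚ] Qb) (hφ : A.IsFrobeniusAt φ q)
    (y : JZero M) (hy : p ^ n • y = 0) (huy : newU M p y = 0) :
    φ • φ • φ • φ • y - ((q ^ 2 + 1 : ℕ) : ℤ) • (φ • φ • y) + ((q ^ 2 : ℕ) : ℤ) • y = 0 := by
  set i : NewIdx M p := ⟨q, hq, hqp, hqM, hq2⟩ with hi
  haveI := i.neZero_q
  haveI := i.neZero_N
  have h12 := (newU_eq_zero_iff y).mp huy i
  exact frobQuartic_cast i.level_eq i.prime i.not_dvd_N hkey i.data i.data_Q i.data_R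
    i.level_eq_data (i.not_dvd_pow n hp) hA hφ y hy h12.1 h12.2

end Fermat.Agent.S35
end
end MergeWrap_S35_KernelAt
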