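import Fermat.Prelude.Def_CuspForm_Newforms
import Fermat.Prelude.Def_GaloisRep_LocalConditions
import Fermat.Agent.MU.Lib.BadRed.Final.Main
import Fermat.Agent.MU.S35.TransferCond

section MergeWrap_S35_Endgame -- from S35/Endgame.lean

set_option autoImplicit false

/-!
# S35, clause 2: the endgame on the eigen-lattice  (owner: helper36)

Clause 2 of S35 asks, at a prime `q ‖ M`, `q ≠ λ`, for the characteristic polynomial
`(X - a)(X - q a)`, `a = ± 1`, of EVERY Frobenius lift `φ` at `q`.  The representation `ρ'` of the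
S30 core satisfies `charpoly (ρ' σ) = X² - t(σ) X + ε(σ)` for all `σ`, where `t` is determined by
the quadratic relation `σ² - t(σ) σ + ε(σ) = 0` on the eigen-lattice `Λ` (`QuadRel`).

Input of this file (`FrobQuartic`): on `Λ` every Frobenius lift `φ` at `q` satisfies
`(φ² - q²)(φ² - 1) = 0`.  (Source: `Λ` lies in the Tate module of the `q`-new part
`ker α_* ∩ ker β_*` of `J₀(M)`; there `φ² - 1` maps into the toric part `W₀` (norms + Kronecker)
and `φ² = q²` on `W₀` (gluing).)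

Output: `t(φ) = ± (q + 1)`, hence clause 2; `s35_of_lattice` is the frozen statement of S35 from
the existence of such a lattice.  No case distinction ramified / unramified, irreducible /
reducible is needed.
-/

namespace Fermat.Agent.S35

open Module IsLocalRing Polynomial Fermat.Agent.S30

/-! ### the algebra -/

section Algebra

variable {R : Type*} [CommRing R] [IsDomain R] {Λ : Type*} [AddCommGroup Λ] [Module R Λ]
  [Module.IsTorsionFree R Λ]

/-- An eigenvector of `f` with eigenvalue `μ` and the quadratic relation give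
`μ² - t μ + q = 0`. -/
theorem eigen_quad {f : Module.End R Λ} {t q μ : R}
    (hquad : f * f - t • f + q • (1 : Module.End R Λ) = 0) {v : Λ} (hv : v ≠ 0)
    (hfv : f v = μ • v) : μ * μ - t * μ + q = 0 := by
  have h1 := congrArg (fun g : Module.End R Λ => g v) hquad
  simp only [LinearMap.add_apply, LinearMap.sub_apply, Module.End.mul_apply, LinearMap.smul_apply,
    Module.End.one_apply, LinearMap.zero_apply, hfv, map_smul] at h1
  have h2 : (μ * μ - t * μ + q) • v = 0 := by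
    rw [add_smul, sub_smul, mul_smul, mul_smul]
    exact h1
  exact (smul_eq_zero.mp h2).resolve_right hv

/-- **The algebra of clause 2.**  If `f² - t f + q = 0` and `(f² - q²)(f² - 1) = 0` on a nonzero
torsion-free module, `q ≠ 0`, then `t = q + 1` or `t = -(q + 1)`. -/
theorem trace_eq_of_quartic [Nontrivial Λ] {f : Module.End R Λ} {t q : R} (hq : q ≠ 0)
    (hquad : f * f - t • f + q • (1 : Module.End R Λ) = 0)
    (hquart : (f * f - (q * q) • (1 : Module.End R Λ)) * (f * f - 1) = 0) :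
    t = q + 1 ∨ t = -(q + 1) := by
  obtain ⟨x₀, hx₀⟩ := exists_ne (0 : Λ)
  -- the four candidates
  have key : ∃ (μ : R) (v : Λ), v ≠ 0 ∧ f v = μ • v ∧
      (μ = 1 ∨ μ = -1 ∨ μ = q ∨ μ = -q) := by
    by_cases h1 : f x₀ + x₀ = 0
    · exact ⟨-1, x₀, hx₀, by rw [neg_one_smul]; exact eq_neg_of_add_eq_zero_left h1,
        Or.inr (Or.inl rfl)⟩
    set y₁ := f x₀ + x₀ with hy₁
    by_cases h2 : f y₁ - y₁ = 0
    · exact ⟨1, y₁, h1, by rw [one_smul]; exact sub_eq_zero.mp h2, Or.inl rfl⟩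
    set y₂ := f y₁ - y₁ with hy₂
    by_cases h3 : f y₂ + q • y₂ = 0
    · exact ⟨-q, y₂, h2, by rw [neg_smul]; exact eq_neg_of_add_eq_zero_left h3,
        Or.inr (Or.inr (Or.inr rfl))⟩
    set y₃ := f y₂ + q • y₂ with hy₃
    refine ⟨q, y₃, h3, ?_, Or.inr (Or.inr (Or.inl rfl))⟩
    have h4 := congrArg (fun g : Module.End R Λ => g x₀) hquart
    simp only [LinearMap.sub_apply, Module.End.mul_apply, LinearMap.smul_apply,
      Module.End.one_apply, LinearMap.zero_apply, map_sub] at h4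
    -- `h4 : f (f (f (f x₀))) - ... = 0`; rewrite `f y₃ - q • y₃` in the same terms
    have h5 : f y₃ - q • y₃ = 0 := by
      rw [hy₃, hy₂, hy₁]
      simp only [map_add, map_sub, map_smul, smul_add, smul_sub]
      rw [← h4]
      simp only [mul_smul]
      abel
    exact sub_eq_zero.mp h5
  obtain ⟨μ, v, hv, hfv, hμ⟩ := key
  have h := eigen_quad hquad hv hfv
  rcases hμ with rfl | rfl | rfl | rfl
  · left
    have : (1 : R) * 1 - t * 1 + q = 0 := h
    linear_combination -this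
  · right
    have : (-1 : R) * (-1) - t * (-1) + q = 0 := h
    linear_combination this
  · left
    have h' : μ * (μ + 1 - t) = 0 := by linear_combination h
    have := (mul_eq_zero.mp h').resolve_left hq
    linear_combination -this
  · right
    have h' : q * (q + 1 + t) = 0 := by linear_combination h
    have := (mul_eq_zero.mp h').resolve_left hq
    linear_combination this

end Algebra

/-! ### the lattice with the quartic identity -/

section Lattice

variable {p N : ℕ} {S : Finset ℕ} {𝒪 : Type} [CommRing 𝒪] [IsDomain 𝒪]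
  [IsDiscreteValuationRing 𝒪] [CharZero 𝒪]

/-- **The quartic identity**: every Frobenius lift `φ` at a prime `q ‖ N`, `q ≠ p`, satisfies
`(φ² - q²)(φ² - 1) = 0` on the module. -/
def FrobQuartic (p N : ℕ) {𝒪 : Type} [CommRing 𝒪] {Λ : Type} [AddCommGroup Λ] [Module 𝒪 Λ]
    (ρ : GQ →* Module.End 𝒪 Λ) : Prop :=
  ∀ q : ℕ, q.Prime → q ≠ p → q ∣ N → ¬ q ^ 2 ∣ N →
    ∀ A : ValuationSubring (AlgebraicClosure ℚ), A.LiesOverPrime q →
      ∀ σ : GQ, A.IsFrobeniusAt σ q →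
        (ρ σ * ρ σ - ((q : 𝒪) * (q : 𝒪)) • (1 : Module.End 𝒪 Λ)) * (ρ σ * ρ σ - 1) = 0

/-- The Galois representation attached to a `FrobLattice` with the quartic identity: besides the
two clauses of S30 it satisfies clause 2 of S35. -/
theorem exists_galoisRepAdic_of_frobLattice_quartic (hdens : F3.FrobDensityLite) (hpS : p ∈ S)
    (a : ℕ → 𝒪) (L : FrobLattice p N S 𝒪 a) (E : CycloCharData p 𝒪)
    (hL : FrobQuartic p N L.ρ) :
    ∃ ρ : GaloisRepAdic 𝒪,
      (∀ ℓ : ℕ, ℓ.Prime → ℓ ∉ S →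
        ∀ A : ValuationSubring (AlgebraicClosure ℚ), A.LiesOverPrime ℓ →
          ∀ σ : GQ, A.IsFrobeniusAt σ ℓ →
            LinearMap.charpoly (ρ.ρ σ) = X ^ 2 - C (a ℓ) * X + C ((ℓ : 𝒪))) ∧
      (∀ q : ℕ, q.Prime → ¬ q ∣ N → q ≠ p → ρ.IsUnramifiedAt q) ∧
      (∀ q : ℕ, q.Prime → q ≠ p → q ∣ N → ¬ q ^ 2 ∣ N →
        ∀ A : ValuationSubring (AlgebraicClosure ℚ), A.LiesOverPrime q →
          ∀ σ : GQ, A.IsFrobeniusAt σ q →
            LinearMap.charpoly (ρ.ρ σ) = X ^ 2 - C ((q : 𝒪) + 1) * X + C ((q : 𝒪)) ∨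
            LinearMap.charpoly (ρ.ρ σ) = X ^ 2 + C ((q : 𝒪) + 1) * X + C ((q : 𝒪))) := by
  obtain ⟨t, hQ, ht⟩ := exists_quadRel_of_frobLattice hdens hpS a L E
  obtain ⟨V, iV1, iV2, iV3, iV4, ρ', hfin, hchar, hcont, hker⟩ :=
    repConclusion_of_quadRel L.ρ E.ε t hQ complexConjugation complexConjugation_mul_self E.conj
  have hadic : GaloisActionIsAdicContinuous 𝒪 ρ' := by
    intro n
    obtain ⟨L₁, hL₁fin, hL₁⟩ := L.cont n
    obtain ⟨L₂, hL₂fin, hL₂⟩ := E.level n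
    refine ⟨L₁ ⊔ L₂, IntermediateField.finiteDimensional_sup L₁ L₂, ?_⟩
    intro σ hσ v
    exact hcont n σ (hL₁ σ (fun x hx => hσ x (le_sup_left (a := L₁) (b := L₂) hx)))
      (hL₂ σ (fun x hx => hσ x (le_sup_right (a := L₁) (b := L₂) hx))) v
  refine ⟨{ V := V, finrank_eq := hfin, ρ := ρ', isAdicContinuous := hadic }, ?_, ?_, ?_⟩
  · intro ℓ hℓ hℓS A hA σ hσ
    have hℓp : ℓ ≠ p := fun h => hℓS (h ▸ hpS)
    show LinearMap.charpoly (ρ' σ) = _
    rw [hchar σ, ht ℓ hℓ hℓS A hA σ hσ, E.frob ℓ hℓ hℓp A hA σ hσ]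
  · intro q hq hqN hqp P hP σ hσ
    show ρ' σ = 1
    exact hker σ (L.unram q hq hqN hqp P hP σ hσ) (E.inertia q hq hqp P hP σ hσ)
  · intro q hq hqp hqN hq2 A hA σ hσ
    show LinearMap.charpoly (ρ' σ) = _ ∨ LinearMap.charpoly (ρ' σ) = _
    have hε : ((E.ε σ : 𝒪ˣ) : 𝒪) = (q : 𝒪) := E.frob q hq hqp A hA σ hσ
    have hq0 : (q : 𝒪) ≠ 0 := Nat.cast_ne_zero.mpr hq.ne_zero
    have h1 := hQ σ
    rw [hε] at h1
    rcases trace_eq_of_quartic hq0 h1 (hL q hq hqp hqN hq2 A hA σ hσ) with h | h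
    · left
      rw [hchar σ, hε, h]
    · right
      rw [hchar σ, hε, h, map_neg, neg_mul, sub_neg_eq_add]

end Lattice

/-! ### S35 from the lattice -/

/-- The frozen statement of S35, as a proposition. -/
def S35Statement : Prop :=
  ∀ {M : ℕ} [NeZero M] {g : CuspForm (CongruenceSubgroup.Gamma0 M) 2} (_hg : g.IsNewform)
    (lam : ℕ) [Fact lam.Prime]
    (S : Finset ℕ)
    (O' : Type) [CommRing O'] [IsDomain O'] [IsDiscreteValuationRing O']
    [IsAdicComplete (IsLocalRing.maximalIdeal O') O'] [Finite (IsLocalRing.ResidueField O')]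
    [CharZero O'] (_hlamO' : (lam : O') ∈ IsLocalRing.maximalIdeal O')
    (chig : CuspForm.heckeAlgebra M 2 (↑S : Set ℕ) →+* ℂ)
    (_hchig : ∀ (ℓ : ℕ) (hℓ : ℓ.Prime) (hℓM : ¬ ℓ ∣ M) (hℓS : ℓ ∉ (↑S : Set ℕ)),
      chig (CuspForm.heckeAlgebra.T hℓ hℓM hℓS) = ModularFormClass.qCoeff g ℓ)
    (iota : chig.range →+* O')
    (_hlamS : lam ∈ S) (_hMS : ∀ q : ℕ, q.Prime → q ∣ M → q ∈ S),
    ∃ (O'' : Type) (_ : CommRing O'') (_ : IsDomain O'') (_ : IsDiscreteValuationRing O'')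
      (_ : IsAdicComplete (IsLocalRing.maximalIdeal O'') O'')
      (_ : Finite (IsLocalRing.ResidueField O''))
      (_ : CharZero O'') (_ : Algebra O' O'') (_ : Module.Finite O' O'')
      (_ : IsLocalHom (algebraMap O' O'')),
      Function.Injective (algebraMap O' O'') ∧
      ∃ ρ : GaloisRepAdic O'',
        (∀ (ℓ : ℕ) (hℓ : ℓ.Prime) (hℓM : ¬ ℓ ∣ M) (hℓS : ℓ ∉ (↑S : Set ℕ)),
          ∀ A : ValuationSubring (AlgebraicClosure ℚ), A.LiesOverPrime ℓ →
            ∀ σ : AlgebraicClosure ℚ ≃ₐ[ℚ] AlgebraicClosure ℚ, A.IsFrobeniusAt σ ℓ →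
              LinearMap.charpoly (ρ.ρ σ) =
                X ^ 2 - C (algebraMap O' O'' ((iota.comp chig.rangeRestrict)
                  (CuspForm.heckeAlgebra.T hℓ hℓM hℓS))) * X
                  + C ((ℓ : O''))) ∧
        (∀ q : ℕ, q.Prime → q ≠ lam → q ∣ M → ¬ q ^ 2 ∣ M →
          ∀ A : ValuationSubring (AlgebraicClosure ℚ), A.LiesOverPrime q →
            ∀ σ : AlgebraicClosure ℚ ≃ₐ[ℚ] AlgebraicClosure ℚ, A.IsFrobeniusAt σ q →
              LinearMap.charpoly (ρ.ρ σ) = X ^ 2 - C ((q : O'') + 1) * X + C ((q : O'')) ∨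
              LinearMap.charpoly (ρ.ρ σ) = X ^ 2 + C ((q : O'') + 1) * X + C ((q : O'')))

/-- **The lattice input of S35**: for a newform `g` of level `M` and a point `ι ∘ χ_g` of the
Hecke algebra there is a `FrobLattice` on which the Frobenius lifts at the primes `q ‖ M`,
`q ≠ λ`, satisfy the quartic identity. -/
def S35LatticeInput : Prop :=
  ∀ {M : ℕ} [NeZero M] {g : CuspForm (CongruenceSubgroup.Gamma0 M) 2} (_hg : g.IsNewform)
    (lam : ℕ) [Fact lam.Prime]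
    (S : Finset ℕ)
    (O' : Type) [CommRing O'] [IsDomain O'] [IsDiscreteValuationRing O']
    [IsAdicComplete (IsLocalRing.maximalIdeal O') O'] [Finite (IsLocalRing.ResidueField O')]
    [CharZero O'] (_hlamO' : (lam : O') ∈ IsLocalRing.maximalIdeal O')
    (chig : CuspForm.heckeAlgebra M 2 (↑S : Set ℕ) →+* ℂ)
    (_hchig : ∀ (ℓ : ℕ) (hℓ : ℓ.Prime) (hℓM : ¬ ℓ ∣ M) (hℓS : ℓ ∉ (↑S : Set ℕ)),
      chig (CuspForm.heckeAlgebra.T hℓ hℓM hℓS) = ModularFormClass.qCoeff g ℓ)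
    (iota : chig.range →+* O')
    (_hlamS : lam ∈ S) (_hMS : ∀ q : ℕ, q.Prime → q ∣ M → q ∈ S),
    ∃ L : FrobLattice lam M S O' (heckeEigenvalue (iota.comp chig.rangeRestrict)),
      FrobQuartic lam M L.ρ

/-- **S35 from the lattice input** (Frobenius density and the cyclotomic character are taken as
hypotheses here; both are unconditional, see `S30/Final.lean`). -/
theorem s35Statement_of_lattice (hdens : F3.FrobDensityLite)
    (hcyc : ∀ (p : ℕ) [Fact p.Prime] (𝒪 : Type) [CommRing 𝒪] [IsDomain 𝒪]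
      [IsDiscreteValuationRing 𝒪] [IsAdicComplete (maximalIdeal 𝒪) 𝒪]
      [Finite (ResidueField 𝒪)] [CharZero 𝒪], (p : 𝒪) ∈ maximalIdeal 𝒪 →
      Nonempty (CycloCharData p 𝒪))
    (hlat : S35LatticeInput) : S35Statement := by
  intro M _ g hg lam _ S O' _ _ _ _ _ _ hlamO' chig hchig iota hlamS hMS
  obtain ⟨E⟩ := hcyc lam O' hlamO'
  obtain ⟨L, hL⟩ := hlat hg lam S O' hlamO' chig hchig iota hlamS hMS
  obtain ⟨ρ, hρ, -, hρ2⟩ := exists_galoisRepAdic_of_frobLattice_quartic hdens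
    hlamS (heckeEigenvalue (iota.comp chig.rangeRestrict)) L E hL
  refine ⟨O', inferInstance, inferInstance, inferInstance, inferInstance, inferInstance,
    inferInstance, Algebra.id O', inferInstance, ?_, Function.injective_id, ρ, ?_, hρ2⟩
  · exact ⟨fun _ h => h⟩
  · intro ℓ hℓ hℓM hℓS A hA σ hσ
    have hℓS' : ℓ ∉ S := fun h => hℓS (Finset.mem_coe.mpr h)
    rw [hρ ℓ hℓ hℓS' A hA σ hσ, heckeEigenvalue_eq (iota.comp chig.rangeRestrict) hℓ hℓM hℓS]
    rfl

end Fermat.Agent.S35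
end MergeWrap_S35_Endgame

section MergeWrap_S35_LatticeCond -- from S35/LatticeCond.lean

set_option autoImplicit false
set_option linter.unusedSectionVars false
set_option linter.style.haveILetI false

/-!
# S35, assembly part A1: the `FrobLattice` with the quartic identity  (statement: helper36)

Input: an eigen-class `x n ∈ 𝒪 ⊗ J₀(M)[pⁿ]` killed by a `G_ℚ`-stable kernel condition
`u : J₀(M) → J'`, and the quartic identity `φ⁴ y - (q² + 1) φ² y + q² y = 0` for the Frobenius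
elements `φ` at the primes `q ‖ M`, `q ≠ p`, on `{y ∈ J₀(M)[pⁿ] : u y = 0}`.
Output: a `FrobLattice` with `FrobQuartic` (the input of `S35/Endgame.lean`).

Proof: `exists_eigenLattice_transfer_cond` (helper34) with the list
`[(1, φ ^ 4), (-(q ^ 2 + 1), φ ^ 2), (q ^ 2, 1)]`; the three clauses `cont`, `unram`, `frob` as in
`Lib/BadRed/Bridge/S34Bridge.lean` (`exists_frobLattice_unip`) / `S30/TateLattice.lean`.

Proof: helper34.
-/

noncomputable section

namespace Fermat.Agent.S35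

open ModularCurve AlgebraicCurve IsLocalRing
open scoped TensorProduct
open Fermat.Agent.S30 Fermat.Agent.S30Tate

/-- **A1.** -/
theorem exists_frobLattice_quartic (M : ℕ) [NeZero M]
    (hFin : F3.TorsionFinite M)
    (hUnr : F3.TorsionUnramified M) (hFrob : F3.TorsionFrobQuadratic M)
    (hOpen : F3.TorsionOpenStab M) (hComm : F3.HeckeGaloisComm M)
    (p : ℕ) [Fact p.Prime] (S : Finset ℕ) (hpS : p ∈ S)
    (hNS : ∀ q : ℕ, q.Prime → q ∣ M → q ∈ S)
    (𝒪 : Type) [CommRing 𝒪] [IsDomain 𝒪] [IsDiscreteValuationRing 𝒪]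
    [IsAdicComplete (maximalIdeal 𝒪) 𝒪] [Finite (ResidueField 𝒪)] [CharZero 𝒪]
    (hp𝒪 : (p : 𝒪) ∈ maximalIdeal 𝒪) (χ : CuspForm.heckeAlgebra M 2 (↑S : Set ℕ) →+* 𝒪)
    -- the eigen-class
    (x : (n : ℕ) → 𝒪 ⊗[ℤ] F3.Jtors M (p ^ n))
    (hx0 : ∃ n, x n ≠ 0)
    (hcompat : ∀ n, (mulPTors M p n).baseChange 𝒪 (x (n + 1)) = x n)
    (heig : ∀ (n ℓ : ℕ) (hℓ : ℓ.Prime) (hℓN : ¬ ℓ ∣ M) (hℓS : ℓ ∉ (↑S : Set ℕ)),
      (F3.heckeTors M (p ^ n) ⟨ℓ, hℓ⟩).baseChange 𝒪 (x n) =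
        χ (CuspForm.heckeAlgebra.T hℓ hℓN hℓS) • x n)
    -- the kernel condition
    {J' : Type} [AddCommGroup J'] (u : JZero M →ₗ[ℤ] J')
    (hu : ∀ (σ : GQ) (y : JZero M), u y = 0 → u (σ • y) = 0)
    (hux : ∀ n, (u ∘ₗ (F3.Jtors M (p ^ n)).subtype).baseChange 𝒪 (x n) = 0)
    -- the quartic identity on the kernel
    (hquart : ∀ (n q : ℕ), q.Prime → q ≠ p → q ∣ M → ¬ q ^ 2 ∣ M →
      ∀ A : ValuationSubring (AlgebraicClosure ℚ), A.LiesOverPrime q →
        ∀ φ : GQ, A.IsFrobeniusAt φ q →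
          ∀ y : JZero M, p ^ n • y = 0 → u y = 0 →
            φ • φ • φ • φ • y - ((q ^ 2 + 1 : ℕ) : ℤ) • (φ • φ • y) + ((q ^ 2 : ℕ) : ℤ) • y = 0) :
    ∃ L : FrobLattice p M S 𝒪 (heckeEigenvalue χ), FrobQuartic p M L.ρ := by
  have hp : p.Prime := Fact.out
  obtain ⟨Λ, _, _, _, _, _, ρ, hcont, hunr, hfrob, hlist⟩ :=
    exists_eigenLattice_transfer_cond (O := 𝒪) (G := GQ) (J := JZero M) (ι := HeckeIdx M S)
      hp hp𝒪
      (fun i => heckeOperatorBar M ⟨i.1, i.2.1⟩)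
      (fun i => χ (CuspForm.heckeAlgebra.T i.2.1 i.2.2.1 i.2.2.2))
      (fun i σ y => hComm ⟨i.1, i.2.1⟩ σ y)
      (hFin p hp.pos)
      (fun n => mulPTors M p n)
      (fun n y => mulPTors_coe M p n y)
      (fun i n => F3.heckeTors M (p ^ n) ⟨i.1, i.2.1⟩)
      (fun i n y => rfl)
      x hx0 hcompat
      (fun i n => heig n i.1 i.2.1 i.2.2.1 i.2.2.2)
      u hu hux
  refine ⟨{
    Λ := Λ
    ρ := ρ
    cont := ?_
    unram := ?_
    frob := ?_ }, ?_⟩
  · -- adic continuity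
    intro n
    have hpos : 0 < p ^ n := pow_pos hp.pos n
    haveI : Finite {y : JZero M // p ^ n • y = 0} := (hFin (p ^ n) hpos).to_subtype
    choose L hLfin hL using fun y : {y : JZero M // p ^ n • y = 0} => hOpen (p ^ n) hpos y.1 y.2
    haveI : ∀ y, FiniteDimensional ℚ (L y) := hLfin
    refine ⟨⨆ y, L y, inferInstance, fun σ hσ v => ?_⟩
    have hfix : ∀ y : JZero M, p ^ n • y = 0 → σ • y = y := fun y hy =>
      hL ⟨y, hy⟩ σ (fun z hz => hσ z (le_iSup L ⟨y, hy⟩ hz))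
    exact hcont n σ hfix v
  · -- unramified
    intro q hq hqN hqp P hP σ hσ
    exact hunr σ (fun n y hy =>
      hUnr (p ^ n) q hq (not_dvd_mul_pow hp hq hqN hqp n) P hP σ hσ y hy)
  · -- Frobenius relation
    intro ℓ hℓ hℓS A hA σ hσ
    have hℓS' : ℓ ∉ (↑S : Set ℕ) := fun h => hℓS (Finset.mem_coe.mp h)
    have hℓN : ¬ ℓ ∣ M := fun h => hℓS (hNS ℓ hℓ h)
    have hℓp : ℓ ≠ p := fun h => hℓS (h ▸ hpS)
    rw [heckeEigenvalue_eq χ hℓ hℓN hℓS']
    exact hfrob σ (⟨ℓ, hℓ, hℓN, hℓS'⟩ : HeckeIdx M S) ℓ (fun n y hy =>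
      hFrob (p ^ n) ℓ hℓ (not_dvd_mul_pow hp hℓ hℓN hℓp n) A hA σ hσ y hy)
  · -- the quartic identity
    intro q hq hqp hqM hq2 A hA φ hφ
    have h := hlist [((1 : ℤ), φ ^ 4), (-((q ^ 2 + 1 : ℕ) : ℤ), φ ^ 2), (((q ^ 2 : ℕ) : ℤ), 1)]
      (fun n y hy huy => by
        have h1 := hquart n q hq hqp hqM hq2 A hA φ hφ y hy huy
        have e4 : φ ^ 4 • y = φ • φ • φ • φ • y := by
          rw [show (4 : ℕ) = 1 + 1 + 1 + 1 from rfl, pow_add, pow_add, pow_add, pow_one, mul_smul,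
            mul_smul, mul_smul]
        have e2 : φ ^ 2 • y = φ • φ • y := by
          rw [pow_two, mul_smul]
        simp only [List.map_cons, List.map_nil, List.sum_cons, List.sum_nil, add_zero, one_smul,
          e4, e2, neg_smul]
        rw [← h1]
        abel)
    simp only [List.map_cons, List.map_nil, List.sum_cons, List.sum_nil, add_zero, one_smul,
      map_pow, map_one, neg_smul] at h
    have hz1 : (((q ^ 2 + 1 : ℕ) : ℤ)) • (ρ φ ^ 2) = ((q : 𝒪) * (q : 𝒪) + 1) • (ρ φ ^ 2) := by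
      rw [← Int.cast_smul_eq_zsmul 𝒪]
      congr 1
      push_cast
      ring
    have hz2 : (((q ^ 2 : ℕ) : ℤ)) • (1 : Module.End 𝒪 Λ)
        = ((q : 𝒪) * (q : 𝒪)) • (1 : Module.End 𝒪 Λ) := by
      rw [← Int.cast_smul_eq_zsmul 𝒪]
      congr 1
      push_cast
      ring
    rw [hz1, hz2] at h
    have hexp : (ρ φ * ρ φ - ((q : 𝒪) * (q : 𝒪)) • (1 : Module.End 𝒪 Λ)) * (ρ φ * ρ φ - 1)
        = ρ φ ^ 4 + (-(((q : 𝒪) * (q : 𝒪) + 1) • ρ φ ^ 2)
          + ((q : 𝒪) * (q : 𝒪)) • (1 : Module.End 𝒪 Λ)) := by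
      rw [sub_mul, mul_sub, mul_sub, mul_one, smul_mul_assoc, one_mul, smul_mul_assoc, one_mul,
        add_smul, one_smul]
      have e4 : ρ φ ^ 4 = ρ φ * ρ φ * (ρ φ * ρ φ) := by
        rw [show (4 : ℕ) = 2 + 2 from rfl, pow_add, pow_two]
      rw [e4, pow_two]
      abel
    show (ρ φ * ρ φ - ((q : 𝒪) * (q : 𝒪)) • (1 : Module.End 𝒪 Λ)) * (ρ φ * ρ φ - 1) = 0
    rw [hexp]
    exact h

end Fermat.Agent.S35
end
end MergeWrap_S35_LatticeCond
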